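import Mathlib
import Fermat.Agent.LT.T7.H305.MatchSpec
import Fermat.Agent.LT.T7.H32.GeomAlg
import Fermat.Agent.LT.T5.H71.TwUnfold
import Fermat.Agent.LT.T1.H309.AdNorm

/-!
# Row LT, tower T7, node `SupplyC`, field `matched` (cut of helper305): leaf C2.2 `TwistRepC305`
# VERBATIM (helper655, registry row 2361)

OFF-MAIN.  `twistRepC655 K : H305.TwistRepC305 K`, unconditional.

If `c N(δ) c⁻¹ = γ'` put `g = c⁻¹`, `δ₁ = g⁻¹ δ σ(g)`: `N δ₁ = g⁻¹ N(δ) g = γ'`
(`normUpTo_twConj32`, helper32), `Fδ₁ = (ratG g)⁻¹ Fδ` is a strict fundamental domain of the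
twisted centraliser `g⁻¹ G^σ_δ(K) g` of `δ₁` in the slab (product formula: `adNormC309`,
`slab_ratG_mul71`), and `twTerm δ₁ x = twTerm δ (ratG g · x)` (`twTerm_tw71`), so the two
integrals agree by the left invariance of the Haar measure.
-/

set_option autoImplicit false

open AutomorphicForm IsDedekindDomain NumberField MeasureTheory

noncomputable section

namespace Fermat.Agent.LT.T7.H655

open Fermat.Agent.LT Fermat.Agent.LT.H556 Fermat.Agent.LT.H556.A0 Fermat.Agent.LT.T7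

attribute [local instance] Fermat.Agent.LT.T5.instMeasurableSpaceG

variable {K : Type} [Field K] [NumberField K]

/-- Conjugation carries the twisted centraliser of `g⁻¹ δ σ(g)` to the one of `δ`. -/
theorem mem_twStab_conj655 (s : T5.AdelicAut K) (δ g γ : GL (Fin 2) K) :
    γ ∈ T5.twStab s (g⁻¹ * δ * s.onRat g) ↔ g * γ * g⁻¹ ∈ T5.twStab s δ := by
  show γ⁻¹ * (g⁻¹ * δ * s.onRat g) * s.onRat γ = g⁻¹ * δ * s.onRat g
    ↔ (g * γ * g⁻¹)⁻¹ * δ * s.onRat (g * γ * g⁻¹) = δ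
  rw [map_mul, map_mul, map_inv]
  constructor
  · intro h
    have h2 : γ⁻¹ * g⁻¹ * δ * s.onRat g * s.onRat γ = g⁻¹ * δ * s.onRat g := by
      rw [← h]
      group
    calc (g * γ * g⁻¹)⁻¹ * δ * (s.onRat g * s.onRat γ * (s.onRat g)⁻¹)
        = g * (γ⁻¹ * g⁻¹ * δ * s.onRat g * s.onRat γ) * (s.onRat g)⁻¹ := by group
      _ = δ := by
        rw [h2]
        group
  · intro h
    calc γ⁻¹ * (g⁻¹ * δ * s.onRat g) * s.onRat γ
        = g⁻¹ * ((g * γ * g⁻¹)⁻¹ * δ * (s.onRat g * s.onRat γ * (s.onRat g)⁻¹)) * s.onRat g := by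
          group
      _ = g⁻¹ * δ * s.onRat g := by rw [h]

/-- The translate `(ratG g)⁻¹ Fδ` of a twisted domain of `δ` is a twisted domain of
`g⁻¹ δ σ(g)`. -/
theorem isTwDomain_translate655 (s : T5.AdelicAut K) (δ g : GL (Fin 2) K) {Fδ : Set (G K)}
    (hF : T5.IsTwDomain s δ Fδ) :
    T5.IsTwDomain s (g⁻¹ * δ * s.onRat g) ((fun x : G K => T5.ratG g * x) ⁻¹' Fδ) := by
  have : BorelSpace (G K) := ⟨rfl⟩
  have hN : T1.AdNormC K := T1.H309.adNormC309 K
  refine ⟨(continuous_const_mul (T5.ratG g)).measurable hF.meas, ?_, ?_⟩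
  · intro x hx
    have h1 : T5.ratG g * x ∈ T5.slab K := hF.sub (Set.mem_preimage.1 hx)
    have h2 := T5.H71.slab_ratG_mul71 hN g⁻¹ _ h1
    rwa [← mul_assoc, ← map_mul, inv_mul_cancel, map_one, one_mul] at h2
  · intro x hx
    have h1 : T5.ratG g * x ∈ T5.slab K := T5.H71.slab_ratG_mul71 hN g x hx
    obtain ⟨γ₀, hγ₀, huniq⟩ := hF.strict _ h1
    have hmem : g⁻¹ * (γ₀ : GL (Fin 2) K) * g ∈ T5.twStab s (g⁻¹ * δ * s.onRat g) := by
      rw [mem_twStab_conj655]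
      have : g * (g⁻¹ * (γ₀ : GL (Fin 2) K) * g) * g⁻¹ = (γ₀ : GL (Fin 2) K) := by group
      rw [this]
      exact γ₀.2
    refine ⟨⟨g⁻¹ * (γ₀ : GL (Fin 2) K) * g, hmem⟩, ?_, ?_⟩
    · refine Set.mem_preimage.2 ?_
      have e : T5.ratG g * (T5.ratG (g⁻¹ * (γ₀ : GL (Fin 2) K) * g) * x)
          = T5.ratG (γ₀ : GL (Fin 2) K) * (T5.ratG g * x) := by
        rw [← mul_assoc, ← mul_assoc, ← map_mul, ← map_mul]
        congr 2
        group
      rw [e]
      exact hγ₀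
    · rintro ⟨γ, hγ⟩ hγx
      have hγx' : T5.ratG g * (T5.ratG γ * x) ∈ Fδ := Set.mem_preimage.1 hγx
      have hmem' : g * γ * g⁻¹ ∈ T5.twStab s δ := (mem_twStab_conj655 s δ g γ).1 hγ
      have e : T5.ratG g * (T5.ratG γ * x) = T5.ratG (g * γ * g⁻¹) * (T5.ratG g * x) := by
        rw [← mul_assoc, ← mul_assoc, ← map_mul, ← map_mul]
        congr 2
        group
      rw [e] at hγx'
      have h3 := huniq ⟨g * γ * g⁻¹, hmem'⟩ hγx'
      apply Subtype.ext
      show γ = g⁻¹ * (γ₀ : GL (Fin 2) K) * g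
      have h4 : g * γ * g⁻¹ = (γ₀ : GL (Fin 2) K) := congrArg Subtype.val h3
      rw [← h4]
      group

/-- The integral over the translated domain. -/
theorem setIntegral_translate655 (μ : Measure (G K)) (hμ : μ.IsHaarMeasure) (a : G K)
    (Fδ : Set (G K)) (f : G K → ℂ) :
    ∫ x in (fun x : G K => a * x) ⁻¹' Fδ, f (a * x) ∂μ = ∫ y in Fδ, f y ∂μ := by
  have : BorelSpace (G K) := ⟨rfl⟩
  have hmp : MeasurePreserving (fun x : G K => a * x) μ μ := measurePreserving_mul_left μ a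
  have hemb : MeasurableEmbedding (fun x : G K => a * x) :=
    (Homeomorph.mulLeft a).measurableEmbedding
  exact hmp.setIntegral_preimage_emb hemb f Fδ

/-- **LEAF C2.2 = TWIST-REP**, verbatim. -/
theorem twistRepC655 (K : Type) [Field K] [NumberField K] : H305.TwistRepC305 K := by
  intro R hR s l k 𝔫 hcyc haut δ γ' hconj Fδ hF
  obtain ⟨c, hc⟩ := isConj_iff.1 hconj
  refine ⟨c * δ * s.onRat c⁻¹, (fun x : G K => T5.ratG c⁻¹ * x) ⁻¹' Fδ, ?_, ?_, fun φ => ?_⟩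
  · have h := T7.H32.normUpTo_twConj32 s l hcyc.pow_eq c⁻¹ δ
    rw [inv_inv] at h
    rw [h, hc]
  · have h := isTwDomain_translate655 s δ c⁻¹ hF
    rwa [inv_inv] at h
  · have h1 : ∀ x : G K, T5.twTerm R.r s φ (c * δ * s.onRat c⁻¹) x
        = T5.twTerm R.r s φ δ (T5.ratG c⁻¹ * x) := by
      intro x
      have h := T5.H71.twTerm_tw71 R.r s φ haut.rat δ c⁻¹ x
      rwa [inv_inv] at h
    simp only [h1]
    exact setIntegral_translate655 R.μ hR.frame.haar (T5.ratG c⁻¹) Fδ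
      (fun y => T5.twTerm R.r s φ δ y)

end Fermat.Agent.LT.T7.H655

end
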